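/-
P-ES / ES-A (helper94, sub-lead): INTERFACES for "torsion of J₀(N) over ℂ via Kummer characters".

Everything here is a definition or a `Prop`-valued statement (no hard proofs).  Work packages prove
the statements; `Fermat.Agent.H94.EsA.Assembly` derives the main theorem from them.

Objects.
* `FC N`            : the function field of `X₀(N)` over `ℂ` (prelude construction, `L = ℂ`);
* `Char0 N`         : characters `Γ₀(N) →* ℂˣ`;
* `IsParEllTrivial` : trivial on all elements of trace `-2 ≤ t ≤ 2` (i.e. `±1`, elliptic, parabolic);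
* `IsKummerRoot N m f χ g` : `g` is holomorphic on `ℍ`, `g ^ m` has `q`-expansion `f`, and
                      `g (γ z) = χ γ * g z` for `γ ∈ Γ₀(N)`;
* `IsDivisible N m f` : `f ≠ 0` and `m ∣ ord_P f` at every place `P` of `FC N` over `ℂ`.
-/
import Fermat.Prelude.Def_ModularCurve_ArithmeticGalois
import Fermat.Agent.H44.Gen11.Rel

set_option autoImplicit false

noncomputable section

open UpperHalfPlane AlgebraicCurve
open scoped MatrixGroups Manifold Topology

namespace Fermat.Agent.H94.EsA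

/-- The function field of `X₀(N)` over `ℂ`, inside `ℂ((q))`. -/
abbrev FC (N : ℕ) : IntermediateField ℂ (LaurentSeries ℂ) :=
  ModularCurve.laurentBaseChange ℂ (ModularCurve.modularFunctionFieldFull N)

/-- Characters of `Γ₀(N)`. -/
abbrev Char0 (N : ℕ) : Type := ↥(CongruenceSubgroup.Gamma0 N) →* ℂˣ

/-- The integer trace of an element of `Γ₀(N)`. -/
def trZ {N : ℕ} (γ : ↥(CongruenceSubgroup.Gamma0 N)) : ℤ :=
  ((γ : SL(2, ℤ)) : Matrix (Fin 2) (Fin 2) ℤ).trace

/-- `χ` is trivial on `±1`, on the elliptic and on the parabolic elements of `Γ₀(N)`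
(the elements with `trace ^ 2 ≤ 4`). -/
def IsParEllTrivial {N : ℕ} (χ : Char0 N) : Prop :=
  ∀ γ : ↥(CongruenceSubgroup.Gamma0 N), trZ γ ^ 2 ≤ 4 → χ γ = 1

/-- The group of *Kummer characters* of exponent `m`: characters of `Γ₀(N)` killed by `m` and
trivial on `±1`, elliptic and parabolic elements.  This is
`Hom(H₁(X₀(N), ℤ), μ_m)`. -/
def kummerChars (N m : ℕ) : Subgroup (Char0 N) where
  carrier := {χ | IsParEllTrivial χ ∧ χ ^ m = 1}
  one_mem' := ⟨fun _ _ => rfl, one_pow m⟩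
  mul_mem' := by
    rintro χ ψ ⟨h1, h2⟩ ⟨h3, h4⟩
    refine ⟨fun γ hγ => ?_, by simp [mul_pow, h2, h4]⟩
    rw [MonoidHom.mul_apply, h1 γ hγ, h3 γ hγ, one_mul]
  inv_mem' := by
    rintro χ ⟨h1, h2⟩
    refine ⟨fun γ hγ => ?_, by simp [inv_pow, h2]⟩
    rw [MonoidHom.inv_apply, h1 γ hγ, inv_one]

theorem mem_kummerChars {N m : ℕ} {χ : Char0 N} :
    χ ∈ kummerChars N m ↔ IsParEllTrivial χ ∧ χ ^ m = 1 := Iff.rfl

/-- `g` is a holomorphic `m`-th root on `ℍ` of the function with `q`-expansion `f`, and it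
transforms under `Γ₀(N)` by the character `χ`. -/
def IsKummerRoot (N m : ℕ) (f : LaurentSeries ℂ) (χ : Char0 N) (g : ℍ → ℂ) : Prop :=
  MDiff g ∧ Fermat.Agent.H44.LaurentRel (g ^ m) f ∧
    ∀ (γ : ↥(CongruenceSubgroup.Gamma0 N)) (z : ℍ),
      g ((γ : SL(2, ℤ)) • z) = ((χ γ : ℂˣ) : ℂ) * g z

/-- `χ` is the Kummer character of (the holomorphic function with `q`-expansion) `f`. -/
def IsKummerCharOf (N m : ℕ) (f : LaurentSeries ℂ) (χ : Char0 N) : Prop :=
  ∃ g : ℍ → ℂ, IsKummerRoot N m f χ g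

/-- `f` is holomorphic on `ℍ` (it is the `q`-expansion of a holomorphic function with a pole of
finite order at `i∞`). -/
def IsHol (f : LaurentSeries ℂ) : Prop := ∃ h : ℍ → ℂ, Fermat.Agent.H44.LaurentRel h f

/-- `f ≠ 0` and its divisor is divisible by `m`. -/
def IsDivisible (N m : ℕ) (f : ↥(FC N)) : Prop :=
  f ≠ 0 ∧ ∀ P : Place ℂ ↥(FC N), (m : ℤ) ∣ P.ord f

/-! ### The statements of ES-A -/

/-- **A-HOL**: every class modulo `m`-th powers has a representative that is holomorphic on `ℍ`. -/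
def HolRepStatement (N : ℕ) : Prop :=
  ∀ (m : ℕ), 0 < m → ∀ f : ↥(FC N), f ≠ 0 → ∃ s : ↥(FC N), s ≠ 0 ∧
    IsHol ((f * s ^ m : ↥(FC N)) : LaurentSeries ℂ)

/-- **A-EX** (root extraction + local analysis at elliptic points and cusps): a holomorphic
`m`-divisible function has a Kummer character, and it lies in `kummerChars N m`. -/
def KummerExistsStatement (N : ℕ) : Prop :=
  ∀ (m : ℕ), 0 < m → ∀ f : ↥(FC N), IsDivisible N m f → IsHol (f : LaurentSeries ℂ) →
    ∃ χ : Char0 N, χ ∈ kummerChars N m ∧ IsKummerCharOf N m (f : LaurentSeries ℂ) χ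

/-- **A-UNIQ**: the Kummer character is unique. -/
def KummerUniqueStatement (N : ℕ) : Prop :=
  ∀ (m : ℕ), 0 < m → ∀ (f : LaurentSeries ℂ), f ≠ 0 → ∀ χ χ' : Char0 N,
    IsKummerCharOf N m f χ → IsKummerCharOf N m f χ' → χ = χ'

/-- **A-KER** (injectivity; uses "modular functions are in `ℂ(j, j_N)`"): trivial Kummer
character implies `m`-th power in the function field. -/
def KummerKernelStatement (N : ℕ) : Prop :=
  ∀ (m : ℕ), 0 < m → ∀ f : ↥(FC N), f ≠ 0 →
    IsKummerCharOf N m (f : LaurentSeries ℂ) 1 → ∃ x : ↥(FC N), x ^ m = f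

/-- **A-SURJ** (Eisenstein series with character): every Kummer character is the Kummer
character of a holomorphic `m`-divisible function. -/
def KummerSurjStatement (N : ℕ) : Prop :=
  ∀ (m : ℕ), 0 < m → ∀ χ : Char0 N, χ ∈ kummerChars N m →
    ∃ f : ↥(FC N), IsDivisible N m f ∧ IsKummerCharOf N m (f : LaurentSeries ℂ) χ

/-- At most exponential growth at `i∞` of all `SL(2,ℤ)`-translates (the shape used in
`Fermat.Agent.H82.cg_theta_growth`). -/
def HasModerateGrowth (h : ℍ → ℂ) : Prop :=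
  ∀ γ : SL(2, ℤ), ∃ (M : ℕ) (C Y : ℝ), 0 ≤ C ∧ ∀ z : ℍ, Y ≤ z.im →
    ‖h (γ • z)‖ ≤ C * Real.exp (2 * Real.pi * M * z.im)

/-- **A-MF** ("modular functions of level `N` that are holomorphic on `ℍ` lie in the function
field"): a holomorphic `Γ₀(N)`-invariant function on `ℍ` all of whose `SL(2,ℤ)`-translates have
at most exponential growth at `i∞` has its `q`-expansion in `FC N`. -/
def ModularFunctionStatement (N : ℕ) : Prop :=
  ∀ h : ℍ → ℂ, MDiff h →
    (∀ (γ : ↥(CongruenceSubgroup.Gamma0 N)) (z : ℍ), h ((γ : SL(2, ℤ)) • z) = h z) →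
    HasModerateGrowth h →
    ∃ x : ↥(FC N), Fermat.Agent.H44.LaurentRel h (x : LaurentSeries ℂ)

/-- **A-GROW** (converse of A-MF): the holomorphic functions with `q`-expansion in `FC N` are
`Γ₀(N)`-invariant of moderate growth. -/
def InvariantGrowthStatement (N : ℕ) : Prop :=
  ∀ (x : ↥(FC N)) (h : ℍ → ℂ), Fermat.Agent.H44.LaurentRel h (x : LaurentSeries ℂ) →
    (∀ (γ : ↥(CongruenceSubgroup.Gamma0 N)) (z : ℍ), h ((γ : SL(2, ℤ)) • z) = h z) ∧
    HasModerateGrowth h

/-- **A-ROOT** (pure complex analysis): a holomorphic function on `ℍ`, not identically zero, all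
of whose zeros have order divisible by `m`, has a holomorphic `m`-th root. -/
def RootStatement : Prop :=
  ∀ (m : ℕ), 0 < m → ∀ f : ℍ → ℂ, MDiff f → f ≠ 0 →
    (∀ z : ℍ, ∃ k : ℕ, analyticOrderAt (f ∘ ofComplex) (z : ℂ) = ((m * k : ℕ) : ℕ∞)) →
    ∃ g : ℍ → ℂ, MDiff g ∧ g ^ m = f

/-- **A-CHAR** (identity theorem): if `g ^ m` is `Γ₀(N)`-invariant then `g` transforms by a
character with values in the `m`-th roots of unity. -/
def CharOfRootStatement (N : ℕ) : Prop :=
  ∀ (m : ℕ), 0 < m → ∀ g : ℍ → ℂ, MDiff g → g ≠ 0 →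
    (∀ (γ : ↥(CongruenceSubgroup.Gamma0 N)) (z : ℍ), g ((γ : SL(2, ℤ)) • z) ^ m = g z ^ m) →
    ∃ χ : Char0 N, χ ^ m = 1 ∧
      ∀ (γ : ↥(CongruenceSubgroup.Gamma0 N)) (z : ℍ),
        g ((γ : SL(2, ℤ)) • z) = ((χ γ : ℂˣ) : ℂ) * g z

end Fermat.Agent.H94.EsA

end
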