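/-
P-ES / ES-A (helper94): the DICTIONARY between places of the function field `FC N` of `X₀(N)`
over `ℂ` and points of `Γ₀(N) \ (ℍ ∪ cusps)`, as a `Prop`-valued statement.

This is the `ℂ`-version of what P-GENUS proved over `ℚ̄` in the abstract form `AnalyticDatum`
(`Fermat.Agent.H61.analyticDatum_of_point`, `Fermat.Agent.H82.analyticDatum_cusp`) combined with
local counting (`Fermat.Agent.H23.LocalCountingStatement`), made explicit.
-/
import Fermat.Agent.H94.EsA.Interfaces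

set_option autoImplicit false

noncomputable section

open UpperHalfPlane AlgebraicCurve Function
open scoped MatrixGroups Manifold Topology

namespace Fermat.Agent.H94.EsA

/-- Half the order of the stabilizer of `z` in `Γ₀(N)` (the stabilizer contains `±1`); this is
the ramification index `e_z ∈ {1, 2, 3}` of `ℍ → X₀(N)` at `z`. -/
def stabOrd (N : ℕ) (z : ℍ) : ℕ :=
  Nat.card {γ : ↥(CongruenceSubgroup.Gamma0 N) // (γ : SL(2, ℤ)) • z = z} / 2

/-- The width of the cusp `γ ∞` of `Γ₀(N)`: the least `w > 0` with `γ T^w γ⁻¹ ∈ Γ₀(N)`. -/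
def cuspWidth (N : ℕ) (γ : SL(2, ℤ)) : ℕ :=
  sInf {w : ℕ | 0 < w ∧ γ * ModularGroup.T ^ w * γ⁻¹ ∈ CongruenceSubgroup.Gamma0 N}

/-- **A-DICT**: there are maps `pt : ℍ → Place` and `cusp : SL(2,ℤ) → Place` such that
* the order at `z₀` of a holomorphic `h` with `q`-expansion `f ∈ FC N` is `e_{z₀} · ord_{pt z₀} f`;
* the order at `0` of `h ∘ γ` in the variable `e^{2πiz/w}`, `w` the width of `γ∞`, is
  `ord_{cusp γ} f`;
* every place is a point place or a cusp place;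
* `pt z` is never a cusp place; `pt` and `cusp` are constant exactly on `Γ₀(N)`-orbits. -/
def DictStatement (N : ℕ) : Prop :=
  ∃ (pt : ℍ → Place ℂ ↥(FC N)) (cusp : SL(2, ℤ) → Place ℂ ↥(FC N)),
    (∀ (z₀ : ℍ) (f : ↥(FC N)) (h : ℍ → ℂ), f ≠ 0 →
      Fermat.Agent.H44.LaurentRel h (f : LaurentSeries ℂ) →
      meromorphicOrderAt (h ∘ ofComplex) (z₀ : ℂ)
        = (((stabOrd N z₀ : ℤ) * (pt z₀).ord f : ℤ) : WithTop ℤ)) ∧
    (∀ (γ : SL(2, ℤ)) (f : ↥(FC N)) (h : ℍ → ℂ), f ≠ 0 →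
      Fermat.Agent.H44.LaurentRel h (f : LaurentSeries ℂ) →
      meromorphicOrderAt
          (Periodic.cuspFunction (cuspWidth N γ : ℝ) ((fun z : ℍ => h (γ • z)) ∘ ofComplex)) 0
        = (((cusp γ).ord f : ℤ) : WithTop ℤ)) ∧
    (∀ P : Place ℂ ↥(FC N), (∃ z₀ : ℍ, P = pt z₀) ∨ ∃ γ : SL(2, ℤ), P = cusp γ) ∧
    (∀ (z : ℍ) (γ : SL(2, ℤ)), pt z ≠ cusp γ) ∧
    (∀ z z' : ℍ, pt z = pt z' ↔
      ∃ γ : ↥(CongruenceSubgroup.Gamma0 N), (γ : SL(2, ℤ)) • z = z') ∧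
    (∀ γ γ' : SL(2, ℤ), cusp γ = cusp γ' ↔
      ∃ (δ : ↥(CongruenceSubgroup.Gamma0 N)) (n : ℤ),
        γ' = (δ : SL(2, ℤ)) * γ * ModularGroup.T ^ n)

end Fermat.Agent.H94.EsA

end
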