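/-
P-ES / ES-A (helper94): further interface statements (analytic work packages) and the MAIN
statement of ES-A.
-/
import Fermat.Agent.H94.EsA.Dict

set_option autoImplicit false

noncomputable section

open UpperHalfPlane AlgebraicCurve Function
open scoped MatrixGroups Manifold Topology

namespace Fermat.Agent.H94.EsA

/-- **A-EIS** (Eisenstein series with character; deliverable of the analytic block): for every
character `χ` of `Γ₀(N)` with values of norm one that is trivial on the elements `± T^k` of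
`Γ₀(N)` (the stabilizer of `i∞`) there is a nonzero holomorphic function `G` on `ℍ` of moderate
growth with `G (γ z) = χ γ * G z`.  (Take `G = E_χ · E₄² / Δ` with
`E_χ z = ½ ∑_{(c,d)} conj χ(γ_{c,d}) (c z + d)⁻⁴` over the bottom rows of `Γ₀(N)`.) -/
def TwistedFunctionStatement (N : ℕ) : Prop :=
  ∀ χ : Char0 N, (∀ γ, ‖((χ γ : ℂˣ) : ℂ)‖ = 1) →
    (∀ γ : ↥(CongruenceSubgroup.Gamma0 N),
      ((γ : SL(2, ℤ)) : Matrix (Fin 2) (Fin 2) ℤ) 1 0 = 0 → χ γ = 1) →
    ∃ G : ℍ → ℂ, MDiff G ∧ G ≠ 0 ∧ HasModerateGrowth G ∧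
      ∀ (γ : ↥(CongruenceSubgroup.Gamma0 N)) (z : ℍ),
        G ((γ : SL(2, ℤ)) • z) = ((χ γ : ℂˣ) : ℂ) * G z

/-- **A-LOC-ELL** (multiplier at a fixed point): if `g (γ z) = c · g z` and `γ z₀ = z₀` then
`c · (denom γ z₀ ^ 2) ^ n = 1`, `n` the order of `g` at `z₀`. -/
def LocalEllStatement : Prop :=
  ∀ (g : ℍ → ℂ), MDiff g → ∀ (γ : SL(2, ℤ)) (z₀ : ℍ) (c : ℂ), γ • z₀ = z₀ →
    (∀ z, g (γ • z) = c * g z) → ∀ n : ℕ,
    meromorphicOrderAt (g ∘ ofComplex) (z₀ : ℂ) = ((n : ℤ) : WithTop ℤ) →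
    c * (denom γ z₀ ^ 2) ^ n = 1

/-- **A-LOC-CUSP** (multiplier at a cusp): if `G (z + w) = c · G z`, and `G ^ m` is
`w`-periodic with cusp function (in `e^{2πiz/w}`) meromorphic of order `n` at `0`, then
`c = exp (2πi n / m)`; in particular `c = 1` iff `m ∣ n`. -/
def LocalCuspStatement : Prop :=
  ∀ (G : ℍ → ℂ), MDiff G → ∀ (w m : ℕ), 0 < w → 0 < m → ∀ (c : ℂ),
    (∀ z : ℍ, G (ModularGroup.T ^ w • z) = c * G z) →
    (∀ z : ℍ, G (ModularGroup.T ^ w • z) ^ m = G z ^ m) →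
    MeromorphicAt (Periodic.cuspFunction (w : ℝ) ((fun z : ℍ => G z ^ m) ∘ ofComplex)) 0 →
    ∀ n : ℤ,
    meromorphicOrderAt (Periodic.cuspFunction (w : ℝ) ((fun z : ℍ => G z ^ m) ∘ ofComplex)) 0
      = (n : WithTop ℤ) →
    c = Complex.exp (2 * Real.pi * Complex.I * n / m)

/-- **A-PARAB** (group theory of `SL(2,ℤ)`): every element of trace `±2` is `± α T^k α⁻¹`. -/
def ParabolicConjStatement : Prop :=
  ∀ γ : SL(2, ℤ), (γ : Matrix (Fin 2) (Fin 2) ℤ).trace ^ 2 = 4 →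
    ∃ (α : SL(2, ℤ)) (k : ℤ), γ = α * ModularGroup.T ^ k * α⁻¹ ∨
      γ = -(α * ModularGroup.T ^ k * α⁻¹)

/-- **A-ELL** (group theory of `SL(2,ℤ)`): every element of trace `-1 ≤ t ≤ 1` has a fixed point
in `ℍ`. -/
def EllipticFixedStatement : Prop :=
  ∀ γ : SL(2, ℤ), (γ : Matrix (Fin 2) (Fin 2) ℤ).trace ^ 2 < 4 → ∃ z : ℍ, γ • z = z

/-- **A-STAB** (stabilizers of points of `ℍ` in `Γ₀(N)`): `γ ↦ denom γ z₀` has values in the
roots of unity of order `2 e`, `e = stabOrd N z₀ ≥ 1`, and some `γ₀` in the stabilizer has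
`denom γ₀ z₀ ^ 2` a primitive `e`-th root of unity. -/
def StabilizerStatement (N : ℕ) : Prop :=
  ∀ z₀ : ℍ, 0 < stabOrd N z₀ ∧
    (∀ γ : ↥(CongruenceSubgroup.Gamma0 N), (γ : SL(2, ℤ)) • z₀ = z₀ →
      (denom (γ : SL(2, ℤ)) z₀ ^ 2) ^ stabOrd N z₀ = 1) ∧
    ∃ γ₀ : ↥(CongruenceSubgroup.Gamma0 N), (γ₀ : SL(2, ℤ)) • z₀ = z₀ ∧
      IsPrimitiveRoot (denom (γ₀ : SL(2, ℤ)) z₀ ^ 2) (stabOrd N z₀)

/-- **A-FIN**: the group of Kummer characters is finite. -/
def KummerCharsFiniteStatement (N : ℕ) : Prop :=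
  ∀ m : ℕ, 0 < m → Finite ↥(kummerChars N m)

/-- The subgroup of `m`-divisible units of the function field. -/
def divisibleUnits (N m : ℕ) : Subgroup (↥(FC N))ˣ where
  carrier := {u | ∀ P : Place ℂ ↥(FC N), (m : ℤ) ∣ P.ord (u : ↥(FC N))}
  one_mem' := fun P => by simp [Place.ord_one]
  mul_mem' := by
    intro u v hu hv P
    rw [Units.val_mul, Place.ord_mul P u.ne_zero v.ne_zero]
    exact dvd_add (hu P) (hv P)
  inv_mem' := by
    intro u hu P
    rw [Units.val_inv_eq_inv_val, Place.ord_inv]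
    exact (dvd_neg).mpr (hu P)

/-- **ES-A MAIN**: the Kummer map.  There is a surjective group homomorphism from the
`m`-divisible units of `FC N` onto the Kummer characters, whose kernel is the group of `m`-th
powers, and which is computed by holomorphic roots: if `u` is holomorphic on `ℍ` then
`κ u` is the Kummer character of `u`. -/
def KummerMapStatement (N : ℕ) : Prop :=
  ∀ m : ℕ, 0 < m → ∃ κ : ↥(divisibleUnits N m) →* ↥(kummerChars N m),
    Function.Surjective κ ∧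
    (∀ u : ↥(divisibleUnits N m), κ u = 1 ↔ ∃ x : (↥(FC N))ˣ, x ^ m = (u : (↥(FC N))ˣ)) ∧
    (∀ u : ↥(divisibleUnits N m), IsHol (((u : (↥(FC N))ˣ) : ↥(FC N)) : LaurentSeries ℂ) →
      IsKummerCharOf N m (((u : (↥(FC N))ˣ) : ↥(FC N)) : LaurentSeries ℂ)
        ((κ u : ↥(kummerChars N m)) : Char0 N))

end Fermat.Agent.H94.EsA

end
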