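/-
P-ES / ES-A (helper94): basic glue lemmas for the Kummer-level assemblies.
-/
import Fermat.Agent.H94.EsA.Interfaces2
import Fermat.Agent.H23.EsA.Lemmas

set_option autoImplicit false

noncomputable section

open UpperHalfPlane AlgebraicCurve Function
open scoped MatrixGroups Manifold Topology

namespace Fermat.Agent.H94.EsA

open Fermat.Agent.H44 (LaurentRel)

/-- A function representing a nonzero Laurent series is nonzero. -/
theorem rep_ne_zero {h : ℍ → ℂ} {f : LaurentSeries ℂ} (H : LaurentRel h f) (hf : f ≠ 0) :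
    h ≠ 0 := by
  rintro rfl
  exact hf (H.unique_right Fermat.Agent.H44.laurentRel_zero)

/-- A Laurent series represented by a nonzero function is nonzero. -/
theorem ne_zero_of_rep {h : ℍ → ℂ} {f : LaurentSeries ℂ} (H : LaurentRel h f) (hh : h ≠ 0) :
    f ≠ 0 := by
  rintro rfl
  exact hh (H.unique_left Fermat.Agent.H44.laurentRel_zero)

theorem neg_one_mem_Gamma0 (N : ℕ) : (-1 : SL(2, ℤ)) ∈ CongruenceSubgroup.Gamma0 N := by
  rw [CongruenceSubgroup.Gamma0_mem]
  simp

theorem trZ_eq {N : ℕ} (γ : ↥(CongruenceSubgroup.Gamma0 N)) :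
    trZ γ = (γ : SL(2, ℤ)) 0 0 + (γ : SL(2, ℤ)) 1 1 := by
  rw [trZ, Matrix.trace_fin_two]

theorem abs_le_two_iff_sq_le (t : ℤ) : |t| ≤ 2 ↔ t ^ 2 ≤ 4 := by
  constructor
  · intro h
    have h1 := abs_le.mp h
    nlinarith [h1.1, h1.2]
  · intro h
    rw [abs_le]
    constructor <;> nlinarith

theorem abs_lt_two_iff_sq_lt (t : ℤ) : |t| < 2 ↔ t ^ 2 < 4 := by
  constructor
  · intro h
    have h1 := abs_lt.mp h
    nlinarith [h1.1, h1.2]
  · intro h
    rw [abs_lt]
    constructor <;> nlinarith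

theorem abs_eq_two_iff_sq_eq (t : ℤ) : |t| = 2 ↔ t ^ 2 = 4 := by
  constructor
  · intro h
    rcases abs_eq (by norm_num : (0 : ℤ) ≤ 2) |>.mp h with h | h <;> rw [h] <;> norm_num
  · intro h
    have h1 : (t - 2) * (t + 2) = 0 := by ring_nf; linarith
    rcases mul_eq_zero.mp h1 with h2 | h2
    · have : t = 2 := by linarith
      rw [this]; norm_num
    · have : t = -2 := by linarith
      rw [this]; norm_num

/-- The two definitions of "parabolic-elliptic trivial" agree. -/
theorem isParEllTrivial_iff {N : ℕ} (χ : Char0 N) :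
    IsParEllTrivial χ ↔ Fermat.Agent.H23.EsA.IsParEllTrivial N χ := by
  constructor
  · intro h γ hγ
    exact h γ (by rw [trZ_eq]; exact (abs_le_two_iff_sq_le _).mp hγ)
  · intro h γ hγ
    exact h γ (by rw [trZ_eq] at hγ; exact (abs_le_two_iff_sq_le _).mpr hγ)

/-- Moderate growth in the sense of `H94` implies moderate growth in the sense of `H23`. -/
theorem moderateGrowth_of_hasModerateGrowth {h : ℍ → ℂ} (H : HasModerateGrowth h) :
    Fermat.Agent.H23.EsA.ModerateGrowth h := by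
  intro γ
  obtain ⟨M, C, Y, -, hb⟩ := H γ
  exact ⟨M, C, Y, hb⟩

/-- Moderate growth in the sense of `H23` implies moderate growth in the sense of `H94`. -/
theorem hasModerateGrowth_of_moderateGrowth {h : ℍ → ℂ}
    (H : Fermat.Agent.H23.EsA.ModerateGrowth h) : HasModerateGrowth h := by
  intro γ
  obtain ⟨M, C, Y, hb⟩ := H γ
  refine ⟨M, max C 0, Y, le_max_right _ _, fun z hz => (hb z hz).trans ?_⟩
  exact mul_le_mul_of_nonneg_right (le_max_left _ _) (Real.exp_pos _).le

/-- Growth of an `m`-th root from growth of the power. -/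
theorem growth_root {G h : ℍ → ℂ} {m : ℕ} (hm : 0 < m) (hG : ∀ z, G z ^ m = h z)
    {M : ℕ} {C Y : ℝ} (hb : ∀ z : ℍ, Y ≤ z.im → ‖h z‖ ≤ C * Real.exp (2 * Real.pi * M * z.im)) :
    ∀ z : ℍ, Y ≤ z.im → ‖G z‖ ≤ max C 1 * Real.exp (2 * Real.pi * M * z.im) := by
  intro z hz
  have hE : (1 : ℝ) ≤ Real.exp (2 * Real.pi * M * z.im) := by
    rw [← Real.exp_zero]
    apply Real.exp_le_exp.mpr
    have := z.im_pos
    positivity
  set B : ℝ := max C 1 * Real.exp (2 * Real.pi * M * z.im) with hB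
  have hB1 : 1 ≤ B := by
    have : (1 : ℝ) ≤ max C 1 := le_max_right _ _
    calc (1 : ℝ) = 1 * 1 := by ring
      _ ≤ max C 1 * Real.exp (2 * Real.pi * M * z.im) :=
        mul_le_mul this hE (by norm_num) (by linarith)
  by_contra hcon
  push Not at hcon
  have h1 : 1 ≤ ‖G z‖ := hB1.trans hcon.le
  have h2 : ‖G z‖ ≤ ‖G z‖ ^ m := by
    calc ‖G z‖ = ‖G z‖ ^ 1 := (pow_one _).symm
      _ ≤ ‖G z‖ ^ m := pow_le_pow_right₀ h1 hm
  have h3 : ‖G z‖ ^ m = ‖h z‖ := by rw [← norm_pow, hG]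
  have h4 : ‖h z‖ ≤ B := (hb z hz).trans
    (mul_le_mul_of_nonneg_right (le_max_left _ _) (Real.exp_pos _).le)
  linarith

end Fermat.Agent.H94.EsA

end
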