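/-
P-ES / ES-A (helper94): assembly of **ES-A MAIN** (`KummerMapStatement`): the Kummer map
`κ : divisibleUnits N m →* kummerChars N m`, surjective with kernel the `m`-th powers.
-/
import Fermat.Agent.H94.EsA.AssemblyKer

set_option autoImplicit false

noncomputable section

open UpperHalfPlane AlgebraicCurve Function
open scoped MatrixGroups Manifold Topology

namespace Fermat.Agent.H94.EsA

open Fermat.Agent.H44 (LaurentRel)

/-- **A-FRAC**: every element of the function field is a quotient of two elements that are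
holomorphic on `ℍ`. -/
def FracHolStatement (N : ℕ) : Prop :=
  ∀ f : ↥(FC N), ∃ r s : ↥(FC N), s ≠ 0 ∧ IsHol (r : LaurentSeries ℂ) ∧
    IsHol (s : LaurentSeries ℂ) ∧ f * s = r

/-- A-FRAC from the ports of P-GENUS to `ℂ`. -/
theorem fracHol_of_core (N : ℕ) [NeZero N] (hC : Fermat.Agent.H23.EsA.CoreCStatement N)
    (hR : Fermat.Agent.H23.EsA.RsubRepStatement N) : FracHolStatement N := by
  intro f
  obtain ⟨r, s, hr, hs, hs0, hfs⟩ := hC.2 f
  obtain ⟨hr', hrep, -⟩ := hR r hr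
  obtain ⟨hs', hsep, -⟩ := hR s hs
  exact ⟨r, s, hs0, ⟨hr', hrep⟩, ⟨hs', hsep⟩, hfs⟩

/-- A-HOL from A-FRAC. -/
theorem holRep_of_fracHol (N : ℕ) (hF : FracHolStatement N) : HolRepStatement N := by
  intro m hm f _
  obtain ⟨r, s, hs0, ⟨R, hR⟩, ⟨S, hS⟩, hfs⟩ := hF f
  refine ⟨s, hs0, R * S ^ (m - 1), ?_⟩
  have h1 : f * s ^ m = r * s ^ (m - 1) := by
    obtain ⟨k, rfl⟩ : ∃ k, m = k + 1 := ⟨m - 1, by omega⟩
    rw [pow_succ', ← mul_assoc, hfs]
    simp
  rw [h1]
  have := hR.mul (laurentRel_pow hS (m - 1))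
  simpa using this

section Indep

variable {N : ℕ} {m : ℕ}

theorem coe_ne_zero {f : ↥(FC N)} (hf : f ≠ 0) : ((f : ↥(FC N)) : LaurentSeries ℂ) ≠ 0 :=
  fun h0 => hf (Subtype.ext h0)

/-- Multiplying by the `m`-th power of a holomorphic invariant function does not change the
Kummer character. -/
theorem isKummerCharOf_mul_pow (hGROW : InvariantGrowthStatement N) {f : LaurentSeries ℂ}
    {χ : Char0 N} (h : IsKummerCharOf N m f χ) {a : ↥(FC N)} (ha : IsHol (a : LaurentSeries ℂ)) :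
    IsKummerCharOf N m (f * (a : LaurentSeries ℂ) ^ m) χ := by
  obtain ⟨g, hgmd, hgrel, hgχ⟩ := h
  obtain ⟨A, hA⟩ := ha
  obtain ⟨hAinv, -⟩ := hGROW a A hA
  refine ⟨g * A, hgmd.mul hA.mdifferentiable, ?_, ?_⟩
  · rw [mul_pow]
    exact hgrel.mul (laurentRel_pow hA m)
  · intro γ z
    rw [Pi.mul_apply, Pi.mul_apply, hgχ, hAinv, mul_assoc]

/-- **Independence**: if `f' = f t ^ m` then `f` and `f'` have the same Kummer character. -/
theorem kummerChar_indep (hm : 0 < m) (hFRAC : FracHolStatement N)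
    (hGROW : InvariantGrowthStatement N) (hUNIQ : KummerUniqueStatement N)
    {f f' t : ↥(FC N)} (hf : f ≠ 0) (ht : t ≠ 0) (hff' : f' = f * t ^ m) {χ χ' : Char0 N}
    (h : IsKummerCharOf N m (f : LaurentSeries ℂ) χ)
    (h' : IsKummerCharOf N m (f' : LaurentSeries ℂ) χ') : χ = χ' := by
  obtain ⟨a, b, hb0, ha, hb, htb⟩ := hFRAC t
  have ha0 : a ≠ 0 := by
    rw [← htb]
    exact mul_ne_zero ht hb0
  have h1 := isKummerCharOf_mul_pow hGROW h ha
  have h2 := isKummerCharOf_mul_pow hGROW h' hb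
  have h3 : (f' : LaurentSeries ℂ) * (b : LaurentSeries ℂ) ^ m
      = (f : LaurentSeries ℂ) * (a : LaurentSeries ℂ) ^ m := by
    have : f' * b ^ m = f * a ^ m := by
      rw [hff', ← htb, mul_pow]
      ring
    have := congrArg (fun y : ↥(FC N) => (y : LaurentSeries ℂ)) this
    simpa using this
  rw [h3] at h2
  have h4 : (f : LaurentSeries ℂ) * (a : LaurentSeries ℂ) ^ m ≠ 0 :=
    mul_ne_zero (coe_ne_zero hf) (pow_ne_zero _ (coe_ne_zero ha0))
  exact hUNIQ m hm _ h4 χ χ' h1 h2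

end Indep

/-- The relation "`χ` is the Kummer character of the class of `u`". -/
def KummerRel (N m : ℕ) (u : (↥(FC N))ˣ) (χ : Char0 N) : Prop :=
  ∃ s : ↥(FC N), s ≠ 0 ∧
    IsKummerCharOf N m ((((u : ↥(FC N)) * s ^ m : ↥(FC N)) : ↥(FC N)) : LaurentSeries ℂ) χ

section Rel

variable {N : ℕ} {m : ℕ}

theorem kummerRel_exists (hm : 0 < m) (hHOL : HolRepStatement N) (hEX : KummerExistsStatement N)
    (u : ↥(divisibleUnits N m)) :
    ∃ χ : Char0 N, χ ∈ kummerChars N m ∧ KummerRel N m (u : (↥(FC N))ˣ) χ := by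
  obtain ⟨s, hs0, hhol⟩ := hHOL m hm ((u : (↥(FC N))ˣ) : ↥(FC N)) (Units.ne_zero _)
  have hdiv : IsDivisible N m (((u : (↥(FC N))ˣ) : ↥(FC N)) * s ^ m) := by
    refine ⟨mul_ne_zero (Units.ne_zero _) (pow_ne_zero _ hs0), fun P => ?_⟩
    rw [Place.ord_mul P (Units.ne_zero _) (pow_ne_zero _ hs0)]
    refine dvd_add (u.2 P) ?_
    have : P.ord (s ^ m) = (m : ℤ) * P.ord s := by
      have := P.ord_zpow s (m : ℤ)
      rwa [zpow_natCast] at this
    rw [this]
    exact dvd_mul_right _ _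
  obtain ⟨χ, hχ, hchar⟩ := hEX m hm _ hdiv hhol
  exact ⟨χ, hχ, s, hs0, hchar⟩

theorem kummerRel_unique (hm : 0 < m) (hFRAC : FracHolStatement N)
    (hGROW : InvariantGrowthStatement N) (hUNIQ : KummerUniqueStatement N)
    {u : (↥(FC N))ˣ} {χ χ' : Char0 N} (h : KummerRel N m u χ) (h' : KummerRel N m u χ') :
    χ = χ' := by
  obtain ⟨s, hs0, hs⟩ := h
  obtain ⟨s', hs0', hs'⟩ := h'
  refine kummerChar_indep hm hFRAC hGROW hUNIQ (f := (u : ↥(FC N)) * s ^ m)
    (f' := (u : ↥(FC N)) * s' ^ m) (t := s' / s)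
    (mul_ne_zero (Units.ne_zero _) (pow_ne_zero _ hs0)) (div_ne_zero hs0' hs0) ?_ hs hs'
  rw [div_pow]
  field_simp

theorem kummerRel_mul {u v : (↥(FC N))ˣ} {χ χ' : Char0 N} (h : KummerRel N m u χ)
    (h' : KummerRel N m v χ') : KummerRel N m (u * v) (χ * χ') := by
  obtain ⟨s, hs0, g, hgmd, hgrel, hgχ⟩ := h
  obtain ⟨s', hs0', g', hgmd', hgrel', hgχ'⟩ := h'
  refine ⟨s * s', mul_ne_zero hs0 hs0', g * g', hgmd.mul hgmd', ?_, ?_⟩
  · have h1 := hgrel.mul hgrel'
    rw [mul_pow]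
    have h2 : ((((u * v : (↥(FC N))ˣ) : ↥(FC N)) * (s * s') ^ m : ↥(FC N)) : LaurentSeries ℂ)
        = ((((u : ↥(FC N)) * s ^ m : ↥(FC N)) : ↥(FC N)) : LaurentSeries ℂ)
          * ((((v : ↥(FC N)) * s' ^ m : ↥(FC N)) : ↥(FC N)) : LaurentSeries ℂ) := by
      rw [← MulMemClass.coe_mul]
      congr 1
      rw [Units.val_mul, mul_pow]
      ring
    rw [h2]
    exact h1
  · intro γ z
    rw [Pi.mul_apply, Pi.mul_apply, hgχ, hgχ', MonoidHom.mul_apply, Units.val_mul]
    ring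

theorem kummerRel_of_hol (hm : 0 < m) (hFRAC : FracHolStatement N)
    (hGROW : InvariantGrowthStatement N) (hUNIQ : KummerUniqueStatement N)
    (hEX : KummerExistsStatement N) {u : ↥(divisibleUnits N m)} {χ : Char0 N}
    (h : KummerRel N m (u : (↥(FC N))ˣ) χ)
    (hhol : IsHol ((((u : (↥(FC N))ˣ) : ↥(FC N)) : ↥(FC N)) : LaurentSeries ℂ)) :
    IsKummerCharOf N m ((((u : (↥(FC N))ˣ) : ↥(FC N)) : ↥(FC N)) : LaurentSeries ℂ) χ := by
  have hdiv : IsDivisible N m ((u : (↥(FC N))ˣ) : ↥(FC N)) := ⟨Units.ne_zero _, u.2⟩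
  obtain ⟨χ', -, hchar'⟩ := hEX m hm _ hdiv hhol
  have h' : KummerRel N m (u : (↥(FC N))ˣ) χ' :=
    ⟨1, one_ne_zero, by simpa using hchar'⟩
  rw [kummerRel_unique hm hFRAC hGROW hUNIQ h h']
  exact hchar'

theorem kummerRel_one_iff (hm : 0 < m) (hFRAC : FracHolStatement N)
    (hGROW : InvariantGrowthStatement N)
    (hKER : KummerKernelStatement N) {u : (↥(FC N))ˣ} :
    KummerRel N m u 1 ↔ ∃ x : (↥(FC N))ˣ, x ^ m = u := by
  constructor
  · rintro ⟨s, hs0, hs⟩
    obtain ⟨y, hy⟩ := hKER m hm _ (mul_ne_zero (Units.ne_zero _) (pow_ne_zero _ hs0)) hs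
    have hy0 : y ≠ 0 := by
      rintro rfl
      rw [zero_pow hm.ne'] at hy
      exact mul_ne_zero (Units.ne_zero u) (pow_ne_zero m hs0) hy.symm
    refine ⟨Units.mk0 (y / s) (div_ne_zero hy0 hs0), Units.ext ?_⟩
    rw [Units.val_pow_eq_pow_val, Units.val_mk0, div_pow, hy]
    field_simp
  · rintro ⟨x, rfl⟩
    -- `x = a / b` with `a`, `b` holomorphic; the class of `x ^ m` is that of `a ^ m`
    obtain ⟨a, b, hb0, ha, hb, hxb⟩ := hFRAC (x : ↥(FC N))
    obtain ⟨A, hA⟩ := ha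
    obtain ⟨hAinv, -⟩ := hGROW a A hA
    refine ⟨b, hb0, A, hA.mdifferentiable, ?_, ?_⟩
    · have h1 : ((x ^ m : (↥(FC N))ˣ) : ↥(FC N)) * b ^ m = a ^ m := by
        rw [Units.val_pow_eq_pow_val, ← mul_pow, hxb]
      rw [h1]
      have := laurentRel_pow hA m
      simpa using this
    · intro γ z
      rw [hAinv]
      simp

end Rel

/-- **ES-A MAIN** from its parts. -/
theorem kummerMap_of_parts (N : ℕ)
    (hFRAC : FracHolStatement N) (hGROW : InvariantGrowthStatement N)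
    (hEX : KummerExistsStatement N) (hUNIQ : KummerUniqueStatement N)
    (hKER : KummerKernelStatement N) (hSURJ : KummerSurjStatement N) :
    KummerMapStatement N := by
  intro m hm
  have hHOL := holRep_of_fracHol N hFRAC
  choose κ hκmem hκrel using fun u : ↥(divisibleUnits N m) => kummerRel_exists hm hHOL hEX u
  have huniq : ∀ (u : ↥(divisibleUnits N m)) (χ : Char0 N),
      KummerRel N m (u : (↥(FC N))ˣ) χ → χ = κ u :=
    fun u χ h => kummerRel_unique hm hFRAC hGROW hUNIQ h (hκrel u)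
  let κ' : ↥(divisibleUnits N m) →* ↥(kummerChars N m) :=
    MonoidHom.mk' (fun u => ⟨κ u, hκmem u⟩) (by
      intro u v
      apply Subtype.ext
      show κ (u * v) = κ u * κ v
      exact (huniq (u * v) _ (kummerRel_mul (hκrel u) (hκrel v))).symm)
  refine ⟨κ', ?_, ?_, ?_⟩
  · -- surjectivity
    rintro ⟨χ, hχ⟩
    obtain ⟨f, ⟨hf0, hfdiv⟩, hchar⟩ := hSURJ m hm χ hχ
    refine ⟨⟨Units.mk0 f hf0, fun P => by simpa using hfdiv P⟩, Subtype.ext ?_⟩
    show κ _ = χ
    refine (huniq _ χ ⟨1, one_ne_zero, ?_⟩).symm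
    simpa using hchar
  · -- kernel
    intro u
    have h1 : κ' u = 1 ↔ κ u = 1 := by
      constructor
      · intro h
        exact congrArg Subtype.val h
      · intro h
        exact Subtype.ext h
    rw [h1, ← kummerRel_one_iff hm hFRAC hGROW hKER]
    constructor
    · intro h
      rw [← h]
      exact hκrel u
    · intro h
      exact (huniq u 1 h).symm
  · -- holomorphic representatives
    intro u hhol
    exact kummerRel_of_hol hm hFRAC hGROW hUNIQ hEX (hκrel u) hhol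

end Fermat.Agent.H94.EsA

end
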