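/-
P-ES / ES-A (helper94): **A-CHAR** and **A-UNIQ** from the landed local lemma POW-EQ
(`Fermat.Agent.H50.powEq`).
-/
import Fermat.Agent.H94.EsA.Interfaces2
import Fermat.Agent.H50.EsALoc

set_option autoImplicit false

noncomputable section

open UpperHalfPlane
open scoped MatrixGroups Manifold Topology

namespace Fermat.Agent.H94.EsA

/-- Composition of a holomorphic function with the action of an element of `SL(2,ℤ)`. -/
theorem mdiff_comp_sl2 {g : ℍ → ℂ} (hg : MDiff g) (γ : SL(2, ℤ)) :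
    MDiff (fun z : ℍ => g (γ • z)) :=
  hg.comp (mdifferentiable_smul (g := (γ : GL (Fin 2) ℝ)) (by simp))

/-- A function that is not identically zero takes a nonzero value. -/
theorem exists_ne_zero_of_ne_zero {g : ℍ → ℂ} (hg0 : g ≠ 0) : ∃ z₀ : ℍ, g z₀ ≠ 0 := by
  by_contra hcon
  exact hg0 (funext fun z => not_not.mp fun h => hcon ⟨z, h⟩)

/-- **A-CHAR**. -/
theorem charOfRoot (N : ℕ) : CharOfRootStatement N := by
  intro m hm g hg hg0 hpow
  have hPE := Fermat.Agent.H50.powEq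
  obtain ⟨z₀, hz₀⟩ := exists_ne_zero_of_ne_zero hg0
  have hex : ∀ γ : ↥(CongruenceSubgroup.Gamma0 N), ∃ ζ : ℂ, ζ ^ m = 1 ∧
      ∀ z : ℍ, g ((γ : SL(2, ℤ)) • z) = ζ * g z := by
    intro γ
    refine hPE m hm (fun z : ℍ => g ((γ : SL(2, ℤ)) • z)) g (mdiff_comp_sl2 hg _) hg ?_
    funext z
    simpa using hpow γ z
  choose ζ hζ1 hζ2 using hex
  have hζ0 : ∀ γ, ζ γ ≠ 0 := by
    intro γ h0
    have := hζ1 γ
    rw [h0, zero_pow hm.ne'] at this
    exact zero_ne_one this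
  have hmul : ∀ γ γ' : ↥(CongruenceSubgroup.Gamma0 N), ζ (γ * γ') = ζ γ * ζ γ' := by
    intro γ γ'
    have h1 := hζ2 (γ * γ') z₀
    have h2 := hζ2 γ (((γ' : ↥(CongruenceSubgroup.Gamma0 N)) : SL(2, ℤ)) • z₀)
    have h3 := hζ2 γ' z₀
    have h4 : (((γ * γ' : ↥(CongruenceSubgroup.Gamma0 N)) : SL(2, ℤ))) • z₀
        = ((γ : SL(2, ℤ))) • (((γ' : SL(2, ℤ))) • z₀) := by
      rw [Subgroup.coe_mul, mul_smul]
    rw [h4, h2, h3, ← mul_assoc] at h1
    exact (mul_right_cancel₀ hz₀ h1).symm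
  let χ : Char0 N := MonoidHom.mk' (fun γ => Units.mk0 (ζ γ) (hζ0 γ)) (by
    intro γ γ'
    apply Units.ext
    simp [hmul γ γ'])
  refine ⟨χ, ?_, ?_⟩
  · ext γ
    simp [χ, hζ1 γ]
  · intro γ z
    simpa [χ] using hζ2 γ z

/-- **A-UNIQ**. -/
theorem kummerUnique (N : ℕ) : KummerUniqueStatement N := by
  intro m hm f hf χ χ' h h'
  have hPE := Fermat.Agent.H50.powEq
  obtain ⟨g, hg, hgrel, hgχ⟩ := h
  obtain ⟨g', hg', hgrel', hgχ'⟩ := h'
  have hpow : g ^ m = g' ^ m := hgrel.unique_left hgrel'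
  obtain ⟨ζ, hζ1, hζ2⟩ := hPE m hm g g' hg hg' hpow
  have hζ0 : ζ ≠ 0 := by
    intro h0
    rw [h0, zero_pow hm.ne'] at hζ1
    exact zero_ne_one hζ1
  -- `g'` is not identically zero
  have hg'0 : g' ≠ 0 := by
    intro h0
    apply hf
    have h1 : Fermat.Agent.H44.LaurentRel (g' ^ m) 0 := by
      rw [h0, zero_pow hm.ne']
      exact Fermat.Agent.H44.laurentRel_zero
    exact hgrel'.unique_right h1
  obtain ⟨z₀, hz₀⟩ := exists_ne_zero_of_ne_zero hg'0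
  ext γ
  have h1 := hgχ γ z₀
  rw [hζ2, hζ2, hgχ' γ z₀] at h1
  have h2 : ((χ' γ : ℂˣ) : ℂ) * (ζ * g' z₀) = ((χ γ : ℂˣ) : ℂ) * (ζ * g' z₀) := by
    rw [← h1]; ring
  exact (mul_right_cancel₀ (mul_ne_zero hζ0 hz₀) h2).symm

end Fermat.Agent.H94.EsA

end
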