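/-
P-ES / ES-A (helper94): **ES-A MAIN** (`KummerMapStatement N`) reduced to the two open leaves
`DegreeCStatement N` (DEG-C) and `ModularFunctionStatement N` (MF), by plugging all landed leaves
into the conditional assemblies of `Fermat.Agent.H94.EsA.AssemblyMap`.
-/
import Fermat.Agent.H94.EsA.AssemblyMap
import Fermat.Agent.H94.EsA.CharUniq
import Fermat.Agent.H13.EsACoreC
import Fermat.Agent.H77.EsAGrow
import Fermat.Agent.H23.EsA.PlacesC
import Fermat.Agent.H41.PointEmbC
import Fermat.Agent.H41.CuspDatumC
import Fermat.Agent.H41.HolRootES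
import Fermat.Agent.H61.ESPoint3
import Fermat.Agent.H49.ES.LocalCountingRefined
import Fermat.Agent.H7.EsA.Loc2
import Fermat.Agent.H50.EsALoc
import Fermat.Agent.H60.EsACuspStatements
import Fermat.Agent.H60.EsAGrpStatements
import Fermat.Agent.H96.EisTwisted

set_option autoImplicit false

noncomputable section

open UpperHalfPlane AlgebraicCurve
open scoped MatrixGroups Manifold Topology

namespace Fermat.Agent.H94.EsA

/-- **PLACES** from DEG-C (all other parts are landed). -/
theorem places_of_degree (N : ℕ) [NeZero N]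
    (hDEG : Fermat.Agent.H23.EsA.DegreeCStatement N) :
    Fermat.Agent.H23.EsA.PlacesStatement N :=
  Fermat.Agent.H23.EsA.places_of_parts (N := N)
    (Fermat.Agent.H13.esaCoreC N) (Fermat.Agent.H13.esaRsubRep N)
    (Fermat.Agent.H77.esg_repRegularStatement N (Fermat.Agent.H13.esaCoreC N)
      (Fermat.Agent.H13.esaRsubRep N))
    hDEG
    (Fermat.Agent.H41.pointEmbeddingStatement N)
    (Fermat.Agent.H61.pointDatum N (Fermat.Agent.H13.esaCoreC N) (Fermat.Agent.H13.esaRsubRep N))
    (Fermat.Agent.H41.cuspDatumStatement_of N (Fermat.Agent.H13.esaCoreC N)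
      (Fermat.Agent.H13.esaRsubRep N))
    Fermat.Agent.H49.localCountingRefined
    Fermat.Agent.H7.EsA.orderMoebius
    Fermat.Agent.H7.EsA.cuspPeriod

/-- **A-GROW**, unconditional. -/
theorem invariantGrowth (N : ℕ) [NeZero N] : InvariantGrowthStatement N :=
  Fermat.Agent.H77.esg_invariantGrowthStatement N (Fermat.Agent.H13.esaCoreC N)
    (Fermat.Agent.H13.esaRsubRep N)

/-- **A-FRAC**, unconditional. -/
theorem fracHol (N : ℕ) [NeZero N] : FracHolStatement N :=
  fracHol_of_core N (Fermat.Agent.H13.esaCoreC N) (Fermat.Agent.H13.esaRsubRep N)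

/-- **A-HOL**, unconditional. -/
theorem holRep (N : ℕ) [NeZero N] : HolRepStatement N :=
  holRep_of_fracHol N (fracHol N)

/-- **A-EX** from DEG-C. -/
theorem kummerExists_of_degree (N : ℕ) [NeZero N]
    (hDEG : Fermat.Agent.H23.EsA.DegreeCStatement N) : KummerExistsStatement N :=
  kummerExists_of_parts N Fermat.Agent.H41.rootStatement' (charOfRoot N) (invariantGrowth N)
    (places_of_degree N hDEG) Fermat.Agent.H50.multiplierChar Fermat.Agent.H50.powOrder
    Fermat.Agent.H60.cuspRootStatement Fermat.Agent.H60.ellipticFixStatement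
    Fermat.Agent.H60.parabolicFormStatement

/-- **A-KER** from MF. -/
theorem kummerKernel_of_mf (N : ℕ) [NeZero N] (hMF : ModularFunctionStatement N) :
    KummerKernelStatement N :=
  kummerKernel_of_parts N hMF (invariantGrowth N)

/-- **A-SURJ** from DEG-C and MF. -/
theorem kummerSurj_of_degree_mf (N : ℕ) [NeZero N]
    (hDEG : Fermat.Agent.H23.EsA.DegreeCStatement N) (hMF : ModularFunctionStatement N) :
    KummerSurjStatement N :=
  kummerSurj_of_parts N (Fermat.Agent.H96.twistedFunction N) hMF (places_of_degree N hDEG)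
    Fermat.Agent.H50.multiplierChar Fermat.Agent.H50.powOrder
    Fermat.Agent.H60.cuspPowStatement Fermat.Agent.H60.fixTraceStatement

/-- **ES-A MAIN** from the two open leaves DEG-C and MF. -/
theorem kummerMap_of_degree_mf (N : ℕ) [NeZero N]
    (hDEG : Fermat.Agent.H23.EsA.DegreeCStatement N) (hMF : ModularFunctionStatement N) :
    KummerMapStatement N :=
  kummerMap_of_parts N (fracHol N) (invariantGrowth N) (kummerExists_of_degree N hDEG)
    (kummerUnique N) (kummerKernel_of_mf N hMF) (kummerSurj_of_degree_mf N hDEG hMF)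

end Fermat.Agent.H94.EsA

end
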