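/-
P-ES / ES-A (helper94): **ES-A MAIN, unconditional.**

`kummerMap N : KummerMapStatement N` — for every `m > 0` there is a group homomorphism
`κ` from the `m`-divisible units of the function field `FC N` of `X₀(N)` over `ℂ` onto the group
`kummerChars N m` of Kummer characters of `Γ₀(N)`, with kernel the `m`-th powers, computed by
holomorphic `m`-th roots.

Inputs: DEG-C (`Fermat.Agent.H69.DegC.degreeC`), MF (`Fermat.Agent.H77.esm_…`), and the assemblies
of `Fermat.Agent.H94.EsA.Main`.
-/
import Fermat.Agent.H94.EsA.Main
import Fermat.Agent.H69.DegreeC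
import Fermat.Agent.H77.EsAMFFinal

set_option autoImplicit false

noncomputable section

open UpperHalfPlane AlgebraicCurve
open scoped MatrixGroups Manifold Topology

namespace Fermat.Agent.H94.EsA

/-- **DEG-C**, unconditional (helper69). -/
theorem degreeC (N : ℕ) [NeZero N] : Fermat.Agent.H23.EsA.DegreeCStatement N :=
  Fermat.Agent.H69.DegC.degreeC N

/-- **A-MF**, unconditional (helper77 / helper32). -/
theorem modularFunction (N : ℕ) [NeZero N] : ModularFunctionStatement N :=
  Fermat.Agent.H77.esm_modularFunctionStatement_of_degreeC N (degreeC N)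

/-- **PLACES**, unconditional. -/
theorem places (N : ℕ) [NeZero N] : Fermat.Agent.H23.EsA.PlacesStatement N :=
  places_of_degree N (degreeC N)

/-- **A-EX**, unconditional. -/
theorem kummerExists (N : ℕ) [NeZero N] : KummerExistsStatement N :=
  kummerExists_of_degree N (degreeC N)

/-- **A-KER**, unconditional. -/
theorem kummerKernel (N : ℕ) [NeZero N] : KummerKernelStatement N :=
  kummerKernel_of_mf N (modularFunction N)

/-- **A-SURJ**, unconditional. -/
theorem kummerSurj (N : ℕ) [NeZero N] : KummerSurjStatement N :=
  kummerSurj_of_degree_mf N (degreeC N) (modularFunction N)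

/-- **ES-A MAIN**, unconditional. -/
theorem kummerMap (N : ℕ) [NeZero N] : KummerMapStatement N :=
  kummerMap_of_degree_mf N (degreeC N) (modularFunction N)

end Fermat.Agent.H94.EsA

end
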